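import Fermat.Prelude.Def_FLTPrelim_Ramification
import Fermat.Agent.Galois.Frobenius
import Mathlib.NumberTheory.NumberField.ExistsRamified
import Mathlib.RingTheory.Valuation.ValuationSubring

/-!
# Places of `ℚ̄` and primes of the ring of all algebraic integers; Minkowski's theorem

We lift inertia elements from finite levels to `ℚ̄` and deduce that an open normal subgroup
containing all inertia subgroups is everything.
-/

set_option autoImplicit false
set_option linter.style.haveILetI false

noncomputable section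

open scoped Pointwise NumberField

namespace Fermat.Agent.Reducible

/-- `ℚ̄` -/
abbrev QBar : Type := AlgebraicClosure ℚ

/-- The absolute Galois group of `ℚ`. -/
abbrev GQ : Type := AlgebraicClosure ℚ ≃ₐ[ℚ] AlgebraicClosure ℚ

/-- The ring of all algebraic integers in `ℚ̄`. -/
abbrev ZBar : Type := integralClosure ℤ (AlgebraicClosure ℚ)

/-- The inclusion of the algebraic integers into a valuation subring. -/
def toValuationSubring (A : ValuationSubring QBar) : ZBar →+* A where
  toFun a := ⟨(a : QBar), Galois.mem_valuationSubring_of_isIntegral A a.2⟩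
  map_one' := rfl
  map_mul' _ _ := rfl
  map_zero' := rfl
  map_add' _ _ := rfl

/-- The centre of a place on the algebraic integers. -/
abbrev center (A : ValuationSubring QBar) : Ideal ZBar := Galois.centre A

lemma mem_center (A : ValuationSubring QBar) (a : ZBar) :
    a ∈ center A ↔ (a : QBar) ∈ A.nonunits := Galois.mem_centre

lemma eq_of_center_eq {A B : ValuationSubring QBar} (h : center A = center B) : A = B :=
  Galois.valuationSubring_eq_of_centre_eq fun x hx => by
    have := SetLike.ext_iff.mp h ⟨x, hx⟩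
    rwa [mem_center, mem_center] at this

lemma exists_eq_div (A : ValuationSubring QBar) {x : QBar} (hx : x ∈ A) :
    ∃ a s : ZBar, s ∉ center A ∧ x * (s : QBar) = (a : QBar) := by
  obtain ⟨b, s, hb, hs, hsA, he⟩ := Galois.exists_integral_num_den A hx
  exact ⟨⟨b, hb⟩, ⟨s, hs⟩, fun h => hsA ((mem_center A _).mp h), he⟩

lemma isUnit_of_not_mem_center {A : ValuationSubring QBar} {s : ZBar} (hs : s ∉ center A) :
    IsUnit (toValuationSubring A s) := by
  simpa [center, Galois.centre, toValuationSubring, IsLocalRing.mem_maximalIdeal, mem_nonunits_iff]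
    using hs

lemma smul_mem_nonunits_iff (g : GQ) (A : ValuationSubring QBar) (x : QBar) :
    g • x ∈ (g • A).nonunits ↔ x ∈ A.nonunits := by
  simp only [ValuationSubring.mem_nonunits_iff_or, ← smul_inv'',
    ValuationSubring.smul_mem_pointwise_smul_iff, smul_eq_zero_iff_eq]

lemma center_smul (g : GQ) (A : ValuationSubring QBar) : center (g • A) = g • center A := by
  ext a
  rw [Ideal.mem_pointwise_smul_iff_inv_smul_mem, mem_center, mem_center,
    ← smul_mem_nonunits_iff g A, integralClosure.coe_smul, smul_inv_smul]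

/-- Every prime of the algebraic integers is the centre of a place. -/
lemma exists_center_eq (M : Ideal ZBar) [M.IsPrime] :
    ∃ A : ValuationSubring QBar, center A = M := by
  let R : Subring QBar := (integralClosure ℤ QBar).toSubring
  let M' : Ideal R := M
  haveI : M'.IsPrime := ‹M.IsPrime›
  obtain ⟨B, hB⟩ := (LocalSubring.ofPrime R M').exists_le_valuationSubring
  refine ⟨B, ?_⟩
  have hloc := hB.2
  ext a
  let a' : (LocalSubring.ofPrime R M').toSubring :=
    algebraMap R (LocalSubring.ofPrime R M').toSubring a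
  have e : toValuationSubring B a = Subring.inclusion hB.1 a' := Subtype.ext rfl
  constructor
  · intro ha
    by_contra hM
    have hu : IsUnit a' := IsLocalization.map_units (M := M'.primeCompl) _ ⟨a, hM⟩
    have := hu.map (Subring.inclusion hB.1)
    rw [← e] at this
    exact (show toValuationSubring B a ∈ IsLocalRing.maximalIdeal B from ha) this
  · intro hM hu
    change IsUnit (toValuationSubring B a) at hu
    rw [e] at hu
    have h1 : IsUnit a' := hloc.map_nonunit a' hu
    exact (IsLocalization.AtPrime.isUnit_to_map_iff _ M' a).mp h1 hM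

/-- `g` fixes the place and acts trivially on its residue field as soon as this holds for the
centre. -/
lemma mem_inertia_of_center {A : ValuationSubring QBar} {g : GQ}
    (hst : g • center A = center A) (hres : ∀ a : ZBar, g • a - a ∈ center A) :
    g ∈ A.inertiaSubgroupIn ℚ := by
  have hgA : g • A = A := eq_of_center_eq (by rw [center_smul, hst])
  refine ⟨⟨g, hgA⟩, ?_, rfl⟩
  rw [ValuationSubring.inertiaSubgroup, SetLike.mem_coe, MonoidHom.mem_ker]
  refine RingEquiv.ext fun r => ?_
  obtain ⟨r, rfl⟩ := IsLocalRing.residue_surjective r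
  rw [MulSemiringAction.toRingAut_apply, MulSemiringAction.toRingEquiv_apply_apply, RingAut.one_apply]
  have hr : (r : QBar) ∈ A := r.2
  obtain ⟨a, s, hs, he⟩ := exists_eq_div A hr
  set g' : A.decompositionSubgroup ℚ := ⟨g, hgA⟩
  have e1 : toValuationSubring A a = r * toValuationSubring A s := Subtype.ext he.symm
  have hmul : ∀ b : ZBar, g' • toValuationSubring A b = toValuationSubring A (g • b) :=
    fun b => Subtype.ext rfl
  have hb : ∀ b : ZBar, IsLocalRing.residue A (g' • toValuationSubring A b)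
      = IsLocalRing.residue A (toValuationSubring A b) := fun b => by
    rw [hmul, ← sub_eq_zero, ← map_sub, ← map_sub, IsLocalRing.residue_eq_zero_iff]
    exact hres b
  have h := hb a
  rw [e1, smul_mul', map_mul, map_mul, hb s] at h
  have h' := mul_right_cancel₀ (((isUnit_of_not_mem_center hs).map (IsLocalRing.residue A)).ne_zero) h
  rwa [IsLocalRing.ResidueField.residue_smul] at h'

section Topology

local instance : TopologicalSpace ZBar := ⊥
local instance : DiscreteTopology ZBar := ⟨rfl⟩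

lemma stabilizer_zbar_isOpen (a : ZBar) : IsOpen (MulAction.stabilizer GQ a : Set GQ) := by
  have : MulAction.stabilizer GQ a = MulAction.stabilizer GQ (a : QBar) := by
    ext g
    simp [MulAction.mem_stabilizer_iff, Subtype.ext_iff, integralClosure.coe_smul]
  rw [this]
  exact stabilizer_isOpen_of_isIntegral (a : QBar)

local instance : ContinuousSMul GQ ZBar :=
  continuousSMul_iff_stabilizer_isOpen.mpr stabilizer_zbar_isOpen

/-- A closed subgroup acts transitively on the primes with the same intersection with the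
invariants. -/
lemma exists_smul_eq_of_under_eq (H : Subgroup GQ) (hH : IsClosed (H : Set GQ))
    (M M' : Ideal ZBar) [M.IsPrime] [M'.IsPrime]
    (h : ∀ a : ZBar, (∀ g ∈ H, g • a = a) → (a ∈ M ↔ a ∈ M')) :
    ∃ g ∈ H, g • M = M' := by
  haveI : CompactSpace H := isCompact_iff_compactSpace.mp hH.isCompact
  haveI : Algebra.IsInvariant (FixedPoints.subalgebra ℤ ZBar H) ZBar H :=
    ⟨fun b hb => ⟨⟨b, hb⟩, rfl⟩⟩
  haveI : SMulCommClass H (FixedPoints.subalgebra ℤ ZBar H) ZBar :=
    ⟨fun g a b => by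
      show g • ((a : ZBar) * b) = (a : ZBar) * (g • b)
      rw [smul_mul', a.2 g]⟩
  obtain ⟨g, hg⟩ := Algebra.IsInvariant.exists_smul_of_under_eq_of_profinite
    (A := FixedPoints.subalgebra ℤ ZBar H) (G := H) M M' (by
      ext a
      exact h a fun g hg => a.2 ⟨g, hg⟩)
  exact ⟨g, g.2, hg.symm⟩

/-- An element stabilising a prime and trivial modulo it on the invariants of a closed subgroup
differs from an inertia element by an element of that subgroup. -/
lemma exists_mul_mem_inertia (H : Subgroup GQ) (hH : IsClosed (H : Set GQ))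
    (M : Ideal ZBar) [M.IsPrime] (g : GQ) (hg : g • M = M)
    (hres : ∀ a : ZBar, (∀ h ∈ H, h • a = a) → g • a - a ∈ M) :
    ∃ h ∈ H, (g * h) • M = M ∧ ∀ a : ZBar, (g * h) • a - a ∈ M := by
  haveI : CompactSpace H := isCompact_iff_compactSpace.mp hH.isCompact
  let B₀ := FixedPoints.subalgebra ℤ ZBar H
  haveI : Algebra.IsInvariant B₀ ZBar H := ⟨fun b hb => ⟨⟨b, hb⟩, rfl⟩⟩
  haveI : SMulCommClass H B₀ ZBar :=
    ⟨fun g a b => by
      show g • ((a : ZBar) * b) = (a : ZBar) * (g • b)
      rw [smul_mul', a.2 g]⟩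
  let P : Ideal B₀ := M.under B₀
  haveI : M.LiesOver P := ⟨rfl⟩
  have hmap : M = M.map (MulSemiringAction.toRingEquiv GQ ZBar g⁻¹ : ZBar →+* ZBar) :=
    (inv_smul_eq_iff.mpr hg.symm).symm
  let τ₀ : (ZBar ⧸ M) ≃+* (ZBar ⧸ M) :=
    Ideal.quotientEquiv M M (MulSemiringAction.toRingEquiv GQ ZBar g⁻¹) hmap
  have hτ : ∀ a : ZBar, τ₀ (Ideal.Quotient.mk M a) = Ideal.Quotient.mk M (g⁻¹ • a) := fun _ => rfl
  let τ : (ZBar ⧸ M) ≃ₐ[B₀ ⧸ P] (ZBar ⧸ M) :=
    { τ₀ with
      commutes' := by
        intro c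
        obtain ⟨b, rfl⟩ := Ideal.Quotient.mk_surjective c
        show τ₀ (Ideal.Quotient.mk M (b : ZBar)) = Ideal.Quotient.mk M (b : ZBar)
        rw [hτ, Ideal.Quotient.mk_eq_mk_iff_sub_mem]
        have hb : g • (b : ZBar) - b ∈ M := hres b fun h hh => b.2 ⟨h, hh⟩
        have := Ideal.smul_mem_pointwise_smul g⁻¹ _ M hb
        rw [inv_smul_eq_iff.mpr hg.symm, smul_sub, inv_smul_smul] at this
        rw [← neg_sub]
        exact M.neg_mem this }
  obtain ⟨⟨h, hh⟩, he⟩ :=
    Ideal.Quotient.stabilizerHom_surjective_of_profinite (G := H) P M τ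
  refine ⟨h, h.2, ?_, fun a => ?_⟩
  · have hh' : (h : GQ) • M = M := hh
    rw [mul_smul, hh', hg]
  · have h1 : Ideal.Quotient.mk M ((h : GQ) • a) = Ideal.Quotient.mk M (g⁻¹ • a) :=
      DFunLike.congr_fun he (Ideal.Quotient.mk M a)
    rw [Ideal.Quotient.mk_eq_mk_iff_sub_mem] at h1
    have := Ideal.smul_mem_pointwise_smul g _ M h1
    rw [hg, smul_sub, smul_inv_smul] at this
    rwa [mul_smul]

end Topology

lemma conj_mem_decomposition {A : ValuationSubring QBar} {g σ : GQ}
    (hσ : σ ∈ A.decompositionSubgroup ℚ) :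
    g * σ * g⁻¹ ∈ (g • A).decompositionSubgroup ℚ := by
  rw [MulAction.mem_stabilizer_iff] at hσ ⊢
  rw [mul_smul, mul_smul, inv_smul_smul, hσ]

lemma conj_mem_inertia {A : ValuationSubring QBar} {g σ : GQ}
    (hσ : σ ∈ A.inertiaSubgroupIn ℚ) :
    g * σ * g⁻¹ ∈ (g • A).inertiaSubgroupIn ℚ := by
  obtain ⟨σ', hσ', rfl⟩ := hσ
  refine ⟨⟨g * σ'.1 * g⁻¹, conj_mem_decomposition σ'.2⟩, ?_, rfl⟩
  rw [ValuationSubring.inertiaSubgroup, SetLike.mem_coe, MonoidHom.mem_ker] at hσ' ⊢
  refine RingEquiv.ext fun r => ?_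
  obtain ⟨r, rfl⟩ := IsLocalRing.residue_surjective r
  rw [MulSemiringAction.toRingAut_apply, MulSemiringAction.toRingEquiv_apply_apply, RingAut.one_apply,
    ← IsLocalRing.ResidueField.residue_smul, ← sub_eq_zero, ← map_sub,
    IsLocalRing.residue_eq_zero_iff, ← ValuationSubring.coe_mem_nonunits_iff]
  have hr : g⁻¹ • (r : QBar) ∈ A := by
    rw [← ValuationSubring.smul_mem_pointwise_smul_iff (g := g), smul_inv_smul]; exact r.2
  have h := RingEquiv.congr_fun hσ' (IsLocalRing.residue A ⟨_, hr⟩)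
  rw [MulSemiringAction.toRingAut_apply, MulSemiringAction.toRingEquiv_apply_apply, RingAut.one_apply,
    ← IsLocalRing.ResidueField.residue_smul, ← sub_eq_zero, ← map_sub,
    IsLocalRing.residue_eq_zero_iff, ← ValuationSubring.coe_mem_nonunits_iff,
    ← smul_mem_nonunits_iff g A] at h
  convert h using 1
  show (g * σ'.1 * g⁻¹) • (r : QBar) - (r : QBar) = g • (σ'.1 • g⁻¹ • (r : QBar) - g⁻¹ • (r : QBar))
  rw [smul_sub, smul_inv_smul, mul_smul, mul_smul]

/-- **Minkowski.** An open subgroup containing every inertia subgroup at every prime is the whole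
absolute Galois group (normality included in the hypotheses). -/
theorem eq_top_of_inertia_le (H : Subgroup GQ) (hH : IsOpen (H : Set GQ)) [H.Normal]
    (h : ∀ q : ℕ, q.Prime → ∀ A : ValuationSubring QBar, A.LiesOverPrime q →
      A.inertiaSubgroupIn ℚ ≤ H) : H = ⊤ := by
  have hcl : IsClosed (H : Set GQ) := H.isClosed_of_isOpen hH
  let F : IntermediateField ℚ QBar := IntermediateField.fixedField H
  have hfix : F.fixingSubgroup = H :=
    InfiniteGalois.fixingSubgroup_fixedField ⟨H, hcl⟩
  haveI hfd : FiniteDimensional ℚ F :=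
    (InfiniteGalois.isOpen_iff_finite F).mp (by rwa [hfix])
  haveI : IsGalois ℚ F := (InfiniteGalois.normal_iff_isGalois F).mp (by rw [hfix]; infer_instance)
  haveI : NumberField F := ⟨⟩
  by_contra hne
  have hfr : Module.finrank ℚ F ≠ 1 := by
    intro h1
    apply hne
    rw [← hfix, IntermediateField.finrank_eq_one_iff.mp h1, IntermediateField.fixingSubgroup_bot]
  obtain ⟨P, hPmax, hP⟩ := NumberField.exists_not_isUnramifiedAt_int (𝒪 := 𝓞 F) hfr
  haveI := hPmax
  haveI := hPmax.isPrime
  letI : MulSemiringAction Gal(F/ℚ) (𝓞 F) := IsIntegralClosure.MulSemiringAction ℤ ℚ F (𝓞 F)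
  haveI := IsGaloisGroup.of_isFractionRing Gal(F/ℚ) ℤ (𝓞 F) ℚ F
  obtain ⟨q, hq, hqP⟩ : ∃ q : ℕ, q.Prime ∧ (q : 𝓞 F) ∈ P := by
    obtain ⟨m, hm : _ = Ideal.span _⟩ := IsPrincipalIdealRing.principal (P.under ℤ)
    have hm0 : m ≠ 0 := fun hm0 ↦ Ideal.IsMaximal.ne_bot_of_isIntegral_int _
      (Ideal.eq_bot_of_comap_eq_bot (hm.trans (by simp [hm0])))
    have : Prime m := by
      rw [← Ideal.span_singleton_prime hm0, ← hm]; infer_instance
    refine ⟨m.natAbs, Int.prime_iff_natAbs_prime.mp this, ?_⟩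
    have hmem : m ∈ P.under ℤ := by rw [hm]; exact Ideal.mem_span_singleton_self m
    have h2 : (m : 𝓞 F) ∈ P := by simpa using hmem
    exact P.mem_of_dvd (map_dvd (Int.castRingHom (𝓞 F)) m.associated_natAbs.dvd) h2
  haveI : PerfectField (P.under ℤ).ResidueField := by
    haveI : (P.under ℤ).IsMaximal := Ideal.IsMaximal.under ℤ P
    haveI : Finite (ℤ ⧸ P.under ℤ) :=
      Ideal.finiteQuotientOfFreeOfNeBot _ (Ring.ne_bot_of_isMaximal_of_not_isField inferInstance
        Int.not_isField)
    haveI : Finite (P.under ℤ).ResidueField :=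
      Finite.of_surjective _ (Ideal.bijective_algebraMap_quotient_residueField (P.under ℤ)).2
    infer_instance
  have hcard : 1 < Nat.card (P.inertia Gal(F/ℚ)) := by
    have e := Ideal.card_inertia_eq_ramificationIdxIn (G := Gal(F/ℚ)) (P.under ℤ) P
    rw [Ideal.ramificationIdxIn_eq_ramificationIdx (P.under ℤ) P Gal(F/ℚ)] at e
    have h0 : Nat.card (P.inertia Gal(F/ℚ)) ≠ 0 := Nat.card_pos.ne'
    have h1 : Nat.card (P.inertia Gal(F/ℚ)) ≠ 1 := fun h1 =>
      hP (Ideal.ramificationIdx_eq_one_iff.mp (e ▸ h1))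
    omega
  obtain ⟨⟨σ, hσ⟩, hσ1⟩ := haveI := (Finite.one_lt_card_iff_nontrivial.mp hcard)
    exists_ne (1 : P.inertia Gal(F/ℚ))
  apply hσ1
  let iF : 𝓞 F →+* ZBar :=
    { toFun := fun z => ⟨((z : F) : QBar), IsIntegral.map
        ((F.val).restrictScalars ℤ) (NumberField.RingOfIntegers.isIntegral_coe z)⟩
      map_one' := rfl
      map_mul' := fun _ _ => rfl
      map_zero' := rfl
      map_add' := fun _ _ => rfl }
  letI : Algebra (𝓞 F) ZBar := iF.toAlgebra
  haveI : IsScalarTower ℤ (𝓞 F) ZBar := IsScalarTower.of_algebraMap_eq fun n => by simp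
  haveI : Algebra.IsIntegral (𝓞 F) ZBar := ⟨fun x => (Algebra.IsIntegral.isIntegral (R := ℤ) x).tower_top⟩
  have hinj : Function.Injective iF := fun a b hab =>
    NumberField.RingOfIntegers.ext (Subtype.ext (congrArg (fun z : ZBar => (z : QBar)) hab :))
  obtain ⟨M, -, hMp, hMP⟩ := Ideal.exists_ideal_over_prime_of_isIntegral P (⊥ : Ideal ZBar) (by
    intro x hx
    have : x = 0 := hinj (by simpa [RingHom.algebraMap_toAlgebra] using hx)
    simp [this])
  haveI := hMp
  have hMP' : ∀ z : 𝓞 F, iF z ∈ M ↔ z ∈ P := fun z => by rw [← hMP]; rfl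
  obtain ⟨g, hg⟩ := AlgEquiv.restrictNormalHom_surjective (F := ℚ) (K₁ := F) QBar σ
  have hgσ : ∀ z : F, g • (z : QBar) = ((σ z : F) : QBar) := fun z => by
    rw [← hg]; exact (AlgEquiv.restrictNormalHom_apply F g z).symm
  have hfixed : ∀ a : ZBar, (∀ x ∈ H, x • a = a) → ∃ z : 𝓞 F, iF z = a := fun a ha => by
    have hm : (a : QBar) ∈ F := fun x => congrArg Subtype.val (ha x.1 x.2)
    exact ⟨⟨⟨(a : QBar), hm⟩, (isIntegral_algebraMap_iff (R := ℤ) (A := F) (B := QBar)
      F.val.toRingHom.injective).mp a.2⟩, Subtype.ext rfl⟩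
  have hsmul : ∀ z : 𝓞 F, g • iF z = iF (σ • z) := fun z => Subtype.ext (by
    show g • ((z : F) : QBar) = (((σ • z : 𝓞 F) : F) : QBar)
    rw [hgσ]
    congr 1
    exact (algebraMap_galRestrict_apply ℤ σ z).symm)
  have hstab : σ • P = P :=
    MulAction.mem_stabilizer_iff.mp (Ideal.inertia_le_stabilizer (M := Gal(F/ℚ)) P hσ)
  obtain ⟨x, hx, hxM⟩ := exists_smul_eq_of_under_eq H hcl (g • M) M (fun a ha => by
    obtain ⟨z, rfl⟩ := hfixed a ha
    have hz : iF z = g • iF (σ⁻¹ • z) := by rw [hsmul, smul_inv_smul]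
    rw [hMP']
    conv_lhs => rw [hz, Ideal.smul_mem_pointwise_smul_iff, hMP',
      ← Ideal.smul_mem_pointwise_smul_iff (a := σ), smul_inv_smul, hstab])
  have hres : ∀ a : ZBar, (∀ y ∈ H, y • a = a) → (x * g) • a - a ∈ M := fun a ha => by
    obtain ⟨z, rfl⟩ := hfixed a ha
    have hfx : x • iF (σ • z) = iF (σ • z) := Subtype.ext (by
      show x • (((σ • z : 𝓞 F) : F) : QBar) = _
      have hxF : x ∈ F.fixingSubgroup := hfix ▸ hx
      exact (IntermediateField.mem_fixingSubgroup_iff _ _).mp hxF _ (SetLike.coe_mem _))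
    rw [mul_smul, hsmul, hfx, ← map_sub, hMP']
    exact hσ z
  obtain ⟨y, hy, hyM, hyres⟩ := exists_mul_mem_inertia H hcl M (x * g)
    (by rw [mul_smul, hxM]) hres
  obtain ⟨A, hA⟩ := exists_center_eq M
  have hAq : A.LiesOverPrime q := by
    have h2 : (q : ZBar) ∈ M := by
      have := (hMP' (q : 𝓞 F)).mpr hqP
      rwa [map_natCast] at this
    rw [← hA, mem_center] at h2
    simpa [ValuationSubring.LiesOverPrime] using h2
  have hIn : x * g * y ∈ H := h q hq A hAq (mem_inertia_of_center (hA ▸ hyM) (hA ▸ hyres))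
  have hgH : g ∈ H := by
    have h3 := H.mul_mem (H.mul_mem (H.inv_mem hx) hIn) (H.inv_mem hy)
    simpa [mul_assoc] using h3
  refine Subtype.ext (AlgEquiv.ext fun z => Subtype.ext ?_)
  show ((σ z : F) : QBar) = (z : QBar)
  rw [← hgσ]
  have hgF : g ∈ F.fixingSubgroup := hfix ▸ hgH
  exact (IntermediateField.mem_fixingSubgroup_iff _ _).mp hgF _ z.2

/-- A homomorphism on the absolute Galois group with open kernel killing all inertia subgroups is
trivial. -/
theorem eq_one_of_unramified {M : Type*} [Group M] (f : GQ →* M)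
    (hopen : IsOpen (f.ker : Set GQ))
    (h : ∀ q : ℕ, q.Prime → ∀ A : ValuationSubring QBar, A.LiesOverPrime q →
      ∀ σ ∈ A.inertiaSubgroupIn ℚ, f σ = 1) : ∀ σ : GQ, f σ = 1 := fun σ => by
  have := eq_top_of_inertia_le f.ker hopen fun q hq A hA τ hτ => h q hq A hA τ hτ
  exact MonoidHom.mem_ker.mp (this ▸ Subgroup.mem_top σ)

end Fermat.Agent.Reducible
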