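import Fermat.Agent.Reducible.Places
import Fermat.Agent.EC.Torsion
import Fermat.Agent.AtP.Main
import Fermat.Agent.Mult.Main
import Fermat.Agent.Mult.Frey
import Fermat.Agent.ECRed.Rat
import Fermat.Prelude.Def_FLTPrelim_ModularRep
import Fermat.Prelude.Def_FLTPrelim_CofixedLine

/-!
# Reducible mod `p` representations of semistable curves

For a semistable integral model and an odd prime `p`, a Galois stable line of `E[p]` either is
fixed pointwise, or the Galois action on the quotient is trivial.  For the Frey curve the second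
case holds.
-/

set_option autoImplicit false
set_option linter.style.haveILetI false

noncomputable section

open scoped Pointwise WeierstrassCurve.Affine
open WeierstrassCurve

namespace Fermat.Agent.Reducible

/-- The `p`-torsion points over `ℚ̄` of a Weierstrass curve over `ℤ`. -/
abbrev Tors (W : WeierstrassCurve ℤ) (p : ℕ) : Type :=
  Submodule.torsionBy ℤ ((W.map (Int.castRingHom ℚ))⁄(AlgebraicClosure ℚ)).Point p

variable {W : WeierstrassCurve ℤ} {p : ℕ}

theorem smul_zmod_smul (σ : GQ) (c : ZMod p) (x : Tors W p) : σ • (c • x) = c • (σ • x) :=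
  smul_comm σ c x

section Fix

variable (N : Submodule (ZMod p) (Tors W p))
  (hN : ∀ σ : GQ, ∀ x ∈ N, σ • x ∈ N)

/-- The subgroup fixing a stable submodule pointwise. -/
def fixSub : Subgroup GQ where
  carrier := {σ | ∀ x ∈ N, σ • x = x}
  one_mem' x _ := one_smul _ x
  mul_mem' {σ τ} hσ hτ x hx := by rw [mul_smul, hτ x hx, hσ x hx]
  inv_mem' {σ} hσ x hx := by
    conv_lhs => rw [← hσ x hx]
    rw [inv_smul_smul]

/-- The subgroup acting trivially on the quotient by a stable submodule. -/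
def fixQuot : Subgroup GQ where
  carrier := {σ | ∀ x : Tors W p, σ • x - x ∈ N}
  one_mem' x := by simp
  mul_mem' {σ τ} hσ hτ x := by
    have h := N.add_mem (hσ (τ • x)) (hτ x)
    rwa [sub_add_sub_cancel, ← mul_smul] at h
  inv_mem' {σ} hσ x := by
    have h := N.neg_mem (hσ (σ⁻¹ • x))
    rwa [smul_inv_smul, neg_sub] at h

include hN in
theorem fixSub_conj {σ : GQ} (hσ : σ ∈ fixSub N) (g : GQ) : g * σ * g⁻¹ ∈ fixSub N := fun x hx => by
  rw [mul_smul, mul_smul, hσ _ (hN g⁻¹ x hx), smul_inv_smul]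

include hN in
theorem fixQuot_conj {σ : GQ} (hσ : σ ∈ fixQuot N) (g : GQ) : g * σ * g⁻¹ ∈ fixQuot N := fun x => by
  have h := hN g _ (hσ (g⁻¹ • x))
  rwa [smul_sub, smul_inv_smul, ← mul_smul, ← mul_smul] at h

end Fix

/-- Inertia subgroups over the same prime are conjugate: a normal subgroup containing one of them
contains all of them. -/
theorem inertia_le_of_one {H : Subgroup GQ} [hH : H.Normal] {q : ℕ} (hq : q.Prime)
    {A A' : ValuationSubring QBar} (hA : A.LiesOverPrime q) (hA' : A'.LiesOverPrime q)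
    (h : A.inertiaSubgroupIn ℚ ≤ H) : A'.inertiaSubgroupIn ℚ ≤ H := by
  obtain ⟨g, hg⟩ := Galois.exists_smul_eq_of_liesOverPrime hq hA' hA
  intro σ hσ
  have h1 := h (hg ▸ conj_mem_inertia (g := g) hσ)
  have h2 := hH.conj_mem _ h1 g⁻¹
  simpa [mul_assoc] using h2

/-- A Frobenius at a place over `ℓ` raises `p`-th roots of unity to the `ℓ`-th power. -/
theorem frobenius_apply_rootOfUnity {A : ValuationSubring QBar} {ℓ : ℕ} (hℓ : ℓ.Prime)
    (hA : A.LiesOverPrime ℓ) {σ : GQ} (hσ : A.IsFrobeniusAt σ ℓ) (hp : p.Prime) (hne : p ≠ ℓ)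
    {μ : QBar} (hμ : μ ^ p = 1) : σ μ = μ ^ ℓ := by
  have hμ0 : μ ≠ 0 := by
    rintro rfl
    simp [hp.ne_zero] at hμ
  have hint : IsIntegral ℤ μ := IsIntegral.of_pow hp.pos (hμ ▸ isIntegral_one)
  have hμA : μ ∈ A := Galois.mem_valuationSubring_of_isIntegral A hint
  have hσA : σ μ ∈ A := Galois.mem_valuationSubring_of_isIntegral A
    (hint.map (σ.toAlgHom.restrictScalars ℤ))
  set z := σ μ / μ ^ ℓ with hz
  have hzp : z ^ p = 1 := by
    rw [hz, div_pow, ← map_pow, hμ, ← pow_mul, mul_comm ℓ p, pow_mul, hμ, map_one, one_pow,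
      div_one]
  suffices h1 : z = 1 by
    rwa [hz, div_eq_one_iff_eq (pow_ne_zero _ hμ0)] at h1
  by_contra h1
  have hzint : IsIntegral ℤ z := IsIntegral.of_pow hp.pos (hzp ▸ isIntegral_one)
  let zA : A := ⟨z, Galois.mem_valuationSubring_of_isIntegral A hzint⟩
  let μA : A := ⟨μ, hμA⟩
  let k := IsLocalRing.residue A
  have hres : k zA = 1 := by
    have hmul : zA * μA ^ ℓ = ⟨σ μ, hσA⟩ :=
      Subtype.ext (div_mul_cancel₀ _ (pow_ne_zero _ hμ0) : z * μ ^ ℓ = σ μ)
    have hfr := hσ.smul_residue_eq (k μA)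
    rw [← IsLocalRing.ResidueField.residue_smul] at hfr
    have hsm : (⟨σ, hσ.mem_decompositionSubgroup⟩ : A.decompositionSubgroup ℚ) • μA
        = ⟨σ μ, hσA⟩ := Subtype.ext rfl
    rw [hsm, ← hmul, map_mul, map_pow] at hfr
    have hne0 : k μA ^ ℓ ≠ 0 := by
      refine pow_ne_zero _ fun h0 => ?_
      have hp1 : μA ^ p = 1 := Subtype.ext hμ
      have := congrArg k hp1
      rw [map_pow, h0, zero_pow hp.ne_zero, map_one] at this
      exact zero_ne_one this
    exact mul_right_cancel₀ hne0 (hfr.trans (one_mul _).symm)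
  have hsum : ∑ i ∈ Finset.range p, z ^ i = 0 := by
    have := geom_sum_mul z p
    rw [hzp, sub_self] at this
    exact (mul_eq_zero.mp this).resolve_right (sub_ne_zero.mpr h1)
  have hsumA : ∑ i ∈ Finset.range p, zA ^ i = 0 := Subtype.ext (by
    rw [AddSubmonoidClass.coe_finsetSum]; exact hsum)
  have hp0 := congrArg k hsumA
  simp only [map_sum, map_pow, hres, one_pow, map_zero, Finset.sum_const, Finset.card_range,
    nsmul_eq_mul, mul_one] at hp0
  rw [← map_natCast k, IsLocalRing.residue_eq_zero_iff, ← ValuationSubring.coe_mem_nonunits_iff]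
    at hp0
  have hdvd := (Galois.intCast_mem_nonunits_iff hℓ hA (p : ℤ)).mp (by exact_mod_cast hp0)
  exact hne ((Nat.prime_dvd_prime_iff_eq hℓ hp).mp (by exact_mod_cast hdvd)).symm

theorem isElliptic_map (hΔ : W.Δ ≠ 0) :
    ((W.map (Int.castRingHom ℚ))⁄(AlgebraicClosure ℚ)).IsElliptic := by
  refine ⟨?_⟩
  change IsUnit ((W.map (Int.castRingHom ℚ)).map (algebraMap ℚ (AlgebraicClosure ℚ))).Δ
  rw [WeierstrassCurve.map_Δ, WeierstrassCurve.map_Δ, isUnit_iff_ne_zero]
  simpa using hΔ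

theorem finrank_tors [Fact p.Prime] (hΔ : W.Δ ≠ 0) :
    Module.finrank (ZMod p) (Tors W p) = 2 :=
  haveI := isElliptic_map hΔ
  EC.finrank_torsionBy (by simpa using (Fact.out : p.Prime).ne_zero)

theorem isOpen_of_finite_level {H : Subgroup GQ}
    (h : ∃ L : IntermediateField ℚ QBar, FiniteDimensional ℚ L ∧
      ∀ σ : GQ, (∀ x ∈ L, σ x = x) → σ ∈ H) : IsOpen (H : Set GQ) := by
  obtain ⟨L, hL, hle⟩ := h
  exact Subgroup.isOpen_mono (fun σ hσ => hle σ fun x hx =>
    (IntermediateField.mem_fixingSubgroup_iff L σ).mp hσ x hx) L.fixingSubgroup_isOpen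

section TwoDim

variable {F V : Type*} [Field F] [AddCommGroup V] [Module F V] (hV : Module.finrank F V = 2)
include hV

theorem finrank_line {N : Submodule F V} (hb : N ≠ ⊥) (ht : N ≠ ⊤) :
    Module.finrank F N = 1 := by
  haveI : Module.Finite F V := Module.finite_of_finrank_eq_succ hV
  have h1 := Submodule.finrank_lt ht
  have h2 : Module.finrank F N ≠ 0 := fun h => hb (Submodule.finrank_eq_zero.mp h)
  omega

theorem sup_span_eq_top {N : Submodule F V} (hb : N ≠ ⊥) (ht : N ≠ ⊤) {y : V} (hy : y ∉ N) :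
    N ⊔ Submodule.span F {y} = ⊤ := by
  haveI : Module.Finite F V := Module.finite_of_finrank_eq_succ hV
  refine Submodule.eq_top_of_finrank_eq (le_antisymm (Submodule.finrank_le _) ?_)
  have hlt : N < N ⊔ Submodule.span F {y} := left_lt_sup.mpr (by simpa using hy)
  have h3 := Submodule.finrank_lt_finrank_of_lt hlt
  have h4 := finrank_line hV hb ht
  omega

theorem inf_eq_bot_of_ne {N L : Submodule F V} (hb : N ≠ ⊥) (ht : N ≠ ⊤) (hb' : L ≠ ⊥)
    (ht' : L ≠ ⊤) (hne : N ≠ L) : N ⊓ L = ⊥ := by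
  haveI : Module.Finite F V := Module.finite_of_finrank_eq_succ hV
  by_contra h
  have h1 := finrank_line hV hb ht
  have h2 := finrank_line hV hb' ht'
  have h3 := finrank_line hV h (fun h' => ht (top_le_iff.mp (h' ▸ inf_le_left)))
  exact hne ((Submodule.eq_of_le_of_finrank_eq inf_le_left (h3.trans h1.symm)).symm.trans
    (Submodule.eq_of_le_of_finrank_eq inf_le_right (h3.trans h2.symm)))

end TwoDim

variable [Fact p.Prime]

/-- A unipotent element stabilising a line fixes it and acts trivially on the quotient. -/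
theorem fix_of_unipotent (hΔ : W.Δ ≠ 0) {N : Submodule (ZMod p) (Tors W p)} (hb : N ≠ ⊥)
    (ht : N ≠ ⊤) {σ : GQ} (hN : ∀ x ∈ N, σ • x ∈ N)
    (hu : ∀ x : Tors W p, σ • (σ • x - x) = σ • x - x) :
    σ ∈ fixSub N ∧ σ ∈ fixQuot N := by
  have hV := finrank_tors (p := p) hΔ
  refine ⟨fun x hx => ?_, fun x => ?_⟩
  · by_contra hne
    have hy : σ • x - x ∈ N := N.sub_mem (hN x hx) hx
    have hy0 : σ • x - x ≠ 0 := sub_ne_zero.mpr hne
    -- the line is spanned by `σ • x - x`, which is fixed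
    obtain ⟨c, hc⟩ := (finrank_eq_one_iff_of_nonzero'
      (K := ZMod p) (⟨_, hy⟩ : N) (fun h => hy0 (congrArg Subtype.val h))).mp
        (finrank_line hV hb ht) ⟨x, hx⟩
    have hc' : c • (σ • x - x) = x := congrArg Subtype.val hc
    apply hne
    conv_lhs => rw [← hc', smul_zmod_smul, hu, hc']
  · by_contra hne
    have htop := sup_span_eq_top hV hb ht hne
    obtain ⟨n, hn, m, hm, e⟩ := Submodule.mem_sup.mp (htop ▸ Submodule.mem_top (x := x))
    obtain ⟨c, rfl⟩ := Submodule.mem_span_singleton.mp hm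
    have h1 : σ • x = σ • n + c • (σ • x - x) := by
      conv_lhs => rw [← e, smul_add, smul_zmod_smul, hu]
    have h2 : σ • x - x = σ • n - n := by
      conv_lhs => rw [h1]; arg 2; rw [← e]
      abel
    exact hne (h2 ▸ N.sub_mem (hN n hn) hn)

/-- **Classification.** For a semistable model and an odd prime `p`, a Galois stable line is either
fixed pointwise or has trivial quotient action. -/
theorem fixed_or_cofixed (hΔ : W.Δ ≠ 0) (hss : W.IsSemistableModel) (hp2 : p ≠ 2)
    (N : Submodule (ZMod p) (Tors W p)) (hN : ∀ σ : GQ, ∀ x ∈ N, σ • x ∈ N) (hb : N ≠ ⊥)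
    (ht : N ≠ ⊤) :
    (∀ σ : GQ, ∀ x ∈ N, σ • x = x) ∨ (∀ σ : GQ, ∀ x : Tors W p, σ • x - x ∈ N) := by
  have hp : p.Prime := Fact.out
  haveI := isElliptic_map hΔ
  obtain ⟨L, hL, hfix⟩ := EC.exists_finiteDimensional_fixing_torsionBy
    (W := (W.map (Int.castRingHom ℚ)).toAffine) hp.ne_zero
  haveI n1 : (fixSub N).Normal := ⟨fun σ hσ g => fixSub_conj N hN hσ g⟩
  haveI n2 : (fixQuot N).Normal := ⟨fun σ hσ g => fixQuot_conj N hN hσ g⟩
  have o1 : IsOpen (fixSub N : Set GQ) :=
    isOpen_of_finite_level ⟨L, hL, fun σ hσ x _ => hfix σ hσ x⟩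
  have o2 : IsOpen (fixQuot N : Set GQ) :=
    isOpen_of_finite_level ⟨L, hL, fun σ hσ x => by
      rw [hfix σ hσ x, sub_self]; exact N.zero_mem⟩
  have haway : ∀ q : ℕ, q.Prime → q ≠ p → ∀ A : ValuationSubring QBar, A.LiesOverPrime q →
      ∀ σ ∈ A.inertiaSubgroupIn ℚ, σ ∈ fixSub N ∧ σ ∈ fixQuot N := by
    intro q hq hqp A hA σ hσ
    have hqn : ¬ q ∣ p := fun h => hqp ((Nat.prime_dvd_prime_iff_eq hq hp).mp h)
    by_cases hbad : (q : ℤ) ∣ W.Δ
    · exact fix_of_unipotent hΔ hb ht (hN σ) fun x =>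
        Mult.inertia_smul_sub_smul_eq (Mult.IsMultPlace.of_semistable hΔ hss hq hbad hA)
          hp.ne_zero hqn hσ x
    · refine fix_of_unipotent hΔ hb ht (hN σ) fun x => ?_
      have hx : σ • x = x :=
        ECRed.galoisRepUnramifiedAt_of_isGoodPrimeFor W hq hbad hqn A hA σ hσ x
      rw [hx, sub_self, smul_zero]
  obtain ⟨A₀, hA₀⟩ := Galois.exists_liesOverPrime hp
  have hat : A₀.inertiaSubgroupIn ℚ ≤ fixSub N ∨ A₀.inertiaSubgroupIn ℚ ≤ fixQuot N := by
    by_cases hbad : (p : ℤ) ∣ W.Δ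
    · have hm := Mult.IsMultPlace.of_semistable hΔ hss hp hbad hA₀
      by_cases hNL : N = Mult.tateLine W A₀ p
      · exact Or.inr fun σ hσ x =>
          hNL ▸ Mult.inertia_smul_sub_mem hm hp.ne_zero hσ x
      · left
        intro σ hσ x hx
        obtain ⟨hb', ht'⟩ := Mult.tateLine_ne_bot_and_ne_top hm hp
        have hmem : σ • x - x ∈ N ⊓ Mult.tateLine W A₀ p :=
          ⟨N.sub_mem (hN σ x hx) hx, Mult.inertia_smul_sub_mem hm hp.ne_zero hσ x⟩
        rw [inf_eq_bot_of_ne (finrank_tors hΔ) hb ht hb' ht' hNL, Submodule.mem_bot,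
          sub_eq_zero] at hmem
        exact hmem
    · rcases AtP.inertia_trivial_on_sub_or_quotient hp2 hbad hA₀ N hb ht
        (fun σ _ => hN σ) with h | h
      · exact Or.inl fun σ hσ => h σ hσ
      · exact Or.inr fun σ hσ => h σ hσ
  rcases hat with h | h
  · left
    have htop := eq_top_of_inertia_le (fixSub N) o1 fun q hq A hA => by
      by_cases hqp : q = p
      · subst hqp; exact inertia_le_of_one hq hA₀ hA h
      · exact fun σ hσ => (haway q hq hqp A hA σ hσ).1
    exact fun σ => (htop ▸ Subgroup.mem_top σ : σ ∈ fixSub N)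
  · right
    have htop := eq_top_of_inertia_le (fixQuot N) o2 fun q hq A hA => by
      by_cases hqp : q = p
      · subst hqp; exact inertia_le_of_one hq hA₀ hA h
      · exact fun σ hσ => (haway q hq hqp A hA σ hσ).2
    exact fun σ => (htop ▸ Subgroup.mem_top σ : σ ∈ fixQuot N)

/-- If inertia at `2` acts non-trivially on `E[p]` and `p ≥ 5`, there is no rational point of order
`p`. -/
theorem not_fixed_of_two (hΔ : W.Δ ≠ 0) (hss : W.IsSemistableModel) (hp5 : 5 ≤ p)
    (h2 : (2 : ℤ) ∣ W.Δ) (hv : ¬ p ∣ padicValInt 2 W.Δ)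
    (N : Submodule (ZMod p) (Tors W p)) (hb : N ≠ ⊥) (ht : N ≠ ⊤) :
    ¬ ∀ σ : GQ, ∀ x ∈ N, σ • x = x := by
  intro hfix
  have hp : p.Prime := Fact.out
  have hp2 : p ≠ 2 := by omega
  obtain ⟨A, σ, hA, hσ⟩ := Galois.exists_valuationSubring_isFrobeniusAt Nat.prime_two
  have hm := Mult.IsMultPlace.of_semistable hΔ hss Nat.prime_two (by exact_mod_cast h2) hA
  have hNL := Mult.eq_tateLine_of_inertia_stable hm hp hv hb ht
    (fun τ _ x hx => by rw [hfix τ x hx]; exact hx)
  obtain ⟨x, hx, hx0⟩ := (Submodule.ne_bot_iff N).mp hb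
  have h := Mult.smul_tateLine hm hp.ne_zero hσ.mem_decompositionSubgroup (a := 2)
    (fun μ hμ => frobenius_apply_rootOfUnity Nat.prime_two hA hσ hp hp2 hμ) (hNL ▸ hx)
  rw [hfix σ x hx] at h
  have h' : ((Mult.tateSign W A σ * 2 - 1 : ℤ) : ZMod p) • x = 0 := by
    rw [Int.cast_smul_eq_zsmul, sub_smul, one_smul, sub_eq_zero]
    exact h.symm
  rcases smul_eq_zero.mp h' with h0 | h0
  · rw [ZMod.intCast_zmod_eq_zero_iff_dvd] at h0
    rcases Mult.tateSign_eq_one_or_neg_one W A σ with hs | hs <;> rw [hs] at h0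
    · have := Int.le_of_dvd (by norm_num) h0; omega
    · have := Int.le_of_dvd (by norm_num) (Int.dvd_neg.mpr h0); omega
  · exact hx0 h0

end Fermat.Agent.Reducible
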