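import Fermat.Agent.Reducible.Main

/-!
# The reducible case for the Frey curve
-/

set_option autoImplicit false

noncomputable section

open scoped WeierstrassCurve.Affine
open WeierstrassCurve WeierstrassCurve.Affine.Point

namespace Fermat.Agent.Reducible

/-- If the mod `p` representation of a semistable model is reducible there is a stable line. -/
theorem exists_line_of_reducible {W : WeierstrassCurve ℤ} {p : ℕ} [Fact p.Prime] (hΔ : W.Δ ≠ 0)
    (hred : ¬ W.ModRepIsIrreducible p) :
    ∃ N : Submodule (ZMod p) (Tors W p),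
      (∀ σ : GQ, ∀ x ∈ N, σ • x ∈ N) ∧ N ≠ ⊥ ∧ N ≠ ⊤ := by
  by_contra hne
  refine hred ⟨Module.nontrivial_of_finrank_eq_succ (finrank_tors (p := p) hΔ), fun N hN => ?_⟩
  by_contra h
  rw [not_or] at h
  exact hne ⟨N, hN, h.1, h.2⟩

/-- A reducible Frey representation has a cofixed line. -/
theorem frey_hasCofixedLine (P : FreyPackage)
    (hred : ¬ GaloisRepIsIrreducible (K := AlgebraicClosure ℚ) ℚ P.freyCurve P.p) :
    HasGaloisStableCofixedLine (K := AlgebraicClosure ℚ) ℚ P.freyCurve P.p := by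
  haveI : Fact P.p.Prime := ⟨P.pp⟩
  have hmap := Mult.freyCurveInt_map P
  rw [← hmap] at hred ⊢
  have hΔ := Mult.freyCurveInt_Δ_ne_zero P
  have hss := Mult.isSemistableModel_freyCurveInt P
  have hp5 := P.hp5
  obtain ⟨N, hN, hb, ht⟩ := exists_line_of_reducible (p := P.p) hΔ hred
  rcases fixed_or_cofixed hΔ hss (by omega) N hN hb ht with h | h
  · exact absurd h (not_fixed_of_two hΔ hss hp5 (Mult.two_dvd_freyCurveInt_Δ P)
      (Mult.not_dvd_padicValInt_two_freyCurveInt_Δ P) N hb ht)
  · exact ⟨N, hN, hb, ht, h⟩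

end Fermat.Agent.Reducible
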